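/-
S33lib / NAn / Zero (helper4): port of `S19lib/An/Zero` over `N.DiscDatum` (one component of the
nodal model), on top of `S33lib/NC`.

The Newton application. For a chart `c` on the disc over `Qb`, disc-regular functions
`e k` with Taylor coefficients in `R`, analytic coefficients `m k : 𝔪^ι → A` and a zero `Z w` in
the disc of the section `s_w = ∑ m_k(w) e_k`, simple at `w = 0`: the coordinate `w ↦ t(Z w)` of
the zero is `AnalyticOn A R ϖ`.
-/
import Fermat.Agent.S19lib.An.CalcNewton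
import Fermat.Agent.S33lib.NC.Taylor

set_option autoImplicit false
set_option linter.style.haveILetI false

noncomputable section

namespace Fermat.Agent.S33lib.NAn

open AlgebraicCurve Fermat.Agent.LSb Fermat.Agent.S18lib Fermat.Agent.S19lib.C
  Fermat.Agent.S33lib.N Fermat.Agent.S33lib.NC Fermat.Agent.S19lib Fermat.Agent.S19lib.An

variable {L : Type*} [Field L] {A : ValuationSubring L}
variable {F : Type*} [Field F] [Algebra L F]
variable {Fk : Type*} [Field Fk] [Algebra (IsLocalRing.ResidueField A) Fk]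
variable [HasPrincipalDivisors L F] [HasPrincipalDivisors (IsLocalRing.ResidueField A) Fk]

local notation "k" => IsLocalRing.ResidueField A

variable {D : DiscDatum A F Fk} {Qb : Place (IsLocalRing.ResidueField A) Fk}

/-- **Newton application, core form.** The simplicity of the zero at `w = 0` is stated on the
Taylor coefficients: `v (∑ m_k(0) · coeff (e k) 1) = 1`. -/
theorem analyticOn_ev_zero_core (c : Chart D Qb) (R : Subring L) (hR : R ≤ A.toSubring) {ϖ : L}
    (hϖ : A.valuation ϖ < 1)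
    (hε : ∀ ε ∈ R, A.valuation ε < 1 → A.valuation ε ≤ A.valuation ϖ)
    (hRinv : ∀ r ∈ R, A.valuation r = 1 → r⁻¹ ∈ R)
    {ι : Type*} [Finite ι] {n : ℕ} (e : Fin n → F) (he : ∀ j, DiscReg D Qb (e j))
    (hcoef : ∀ j i, c.coeff (e j) i ∈ R)
    (m : Fin n → (ι → L) → L) (hm : ∀ j, AnalyticOn A R ϖ (m j))
    (Z : (ι → L) → Place L F) (hZr : ∀ w ∈ PolyDisc A ι, D.r (Z w) = some Qb)
    (hZ : ∀ w ∈ PolyDisc A ι, ∑ j, m j w * ev (Z w) (e j) = 0)
    (hsimple : A.valuation (∑ j, m j 0 * c.coeff (e j) 1) = 1) :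
    AnalyticOn A R ϖ (fun w => ev (Z w) c.t) := by
  have hϖA : ϖ ∈ A := A.mem_of_valuation_le_one _ (le_of_lt hϖ)
  haveI : Fact (R ≤ A.toSubring) := ⟨hR⟩
  refine analyticOn_of_series_roots A R hR hϖ hε hRinv
    (σ := fun i w => ∑ j, m j w * c.coeff (e j) i) (fun i => ?_) (fun w hw => ?_) hsimple
    (fun M w hw => ?_)
  · exact analyticOn_finset_sum A R hR hϖA _ (fun j _ =>
      analyticOn_mul A R hR hϖA (hm j) (analyticOn_const A R hR hϖA (hcoef j i)))
  · exact c.valuation_ev_lt_one (hZr w hw)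
  · have hP := hZr w hw
    refine ⟨-∑ j, m j w * ev (Z w) (c.rem (e j) M), ?_, ?_⟩
    · refine A.neg_mem _ (A.toSubring.sum_mem (fun j _ => ?_))
      exact A.mul_mem _ _ (analyticOn_mem A R hϖA (hm j) hw) (c.ev_rem_mem (he j) M hP)
    · have h1 : ∀ j, ev (Z w) (e j) = ∑ i ∈ Finset.range M, c.coeff (e j) i * ev (Z w) c.t ^ i
          + ev (Z w) c.t ^ M * ev (Z w) (c.rem (e j) M) := fun j => c.taylor_ev (he j) M hP
      have h2 := hZ w hw
      have h3 : ∑ j, m j w * ev (Z w) (e j) =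
          ∑ i ∈ Finset.range M, (∑ j, m j w * c.coeff (e j) i) * ev (Z w) c.t ^ i
            + ev (Z w) c.t ^ M * ∑ j, m j w * ev (Z w) (c.rem (e j) M) := by
        calc ∑ j, m j w * ev (Z w) (e j)
            = ∑ j, (∑ i ∈ Finset.range M, m j w * c.coeff (e j) i * ev (Z w) c.t ^ i
                + ev (Z w) c.t ^ M * (m j w * ev (Z w) (c.rem (e j) M))) := by
              refine Finset.sum_congr rfl (fun j _ => ?_)
              rw [h1 j, mul_add, Finset.mul_sum]
              congr 1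
              · exact Finset.sum_congr rfl (fun i _ => by ring)
              · ring
          _ = ∑ i ∈ Finset.range M, (∑ j, m j w * c.coeff (e j) i) * ev (Z w) c.t ^ i
                + ev (Z w) c.t ^ M * ∑ j, m j w * ev (Z w) (c.rem (e j) M) := by
              rw [Finset.sum_add_distrib, Finset.sum_comm, ← Finset.mul_sum]
              congr 1
              exact Finset.sum_congr rfl (fun i _ => by rw [Finset.sum_mul])
      rw [h3] at h2
      linear_combination h2

/-! ### the simple zero condition through the reduction -/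

/-- `rem` is additive on functions regular on the disc -/
theorem rem_sum_smul (c : Chart D Qb) {n : ℕ} (e : Fin n → F) (he : ∀ j, DiscReg D Qb (e j))
    (a : Fin n → A) (i : ℕ) :
    c.rem (∑ j, ((a j : A) : L) • e j) i = ∑ j, ((a j : A) : L) • c.rem (e j) i := by
  induction i with
  | zero => rfl
  | succ i ih =>
    rw [c.rem_succ, ih, dq_sum (c.deg_one _) _ _ (fun j _ =>
      ((c.discReg_rem (he j) i).smul (a j)).2 _ c.r_P0)]
    refine Finset.sum_congr rfl (fun j _ => ?_)
    rw [dq_smul (c.deg_one _) _ ((c.discReg_rem (he j) i).2 _ c.r_P0), c.rem_succ]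

theorem coeff_sum_smul (c : Chart D Qb) {n : ℕ} (e : Fin n → F) (he : ∀ j, DiscReg D Qb (e j))
    (a : Fin n → A) (i : ℕ) :
    c.coeff (∑ j, ((a j : A) : L) • e j) i = ∑ j, ((a j : A) : L) * c.coeff (e j) i := by
  rw [Chart.coeff, rem_sum_smul c e he a i, ev_sum (c.deg_one _) _ _ (fun j _ =>
      ((c.discReg_rem (he j) i).smul (a j)).2 _ c.r_P0)]
  refine Finset.sum_congr rfl (fun j _ => ?_)
  rw [ev_smul (c.deg_one _) _ ((c.discReg_rem (he j) i).2 _ c.r_P0)]
  rfl

/-- if the reduction of a disc-regular `s` has a simple zero at `Qb` then the first Taylor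
coefficient of `s` is a unit of `A` -/
theorem valuation_coeff_one_eq_one (c : Chart D Qb) (hQ : Qb.deg = 1) {s : F}
    (hs : DiscReg D Qb s) (hord : Qb.ord (D.G.redF s) = 1) :
    A.valuation (c.coeff s 1) = 1 := by
  have hd := c.deg_one c.P0
  have hmem : c.coeff s 1 ∈ A := c.coeff_mem hs 1
  -- the residue of the coefficient is the value of `dq` of the reduction
  have hres : IsLocalRing.residue A ⟨c.coeff s 1, hmem⟩ =
      ev Qb (dq Qb (D.G.redF c.t) (D.G.redF s)) := by
    have h1 := (hs.dq c.param c.deg_one c.r_P0).residue_ev c.r_P0 hd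
    rw [hs.redF_dq c.param c.r_P0 hd] at h1
    exact h1
  have hsne : D.G.redF s ≠ 0 := by
    intro h0
    rw [h0, Qb.ord_zero] at hord
    exact zero_ne_one hord
  -- `s̄(Qb) = 0`
  have hsreg : RegAt Qb (D.G.redF s) := regAt_iff_ord.2 (by omega)
  have hs0 : ev Qb (D.G.redF s) = 0 := by
    rw [ev_eq_zero_iff hQ hsreg]
    exact Or.inr (by omega)
  have htne : D.G.redF c.t - algebraMap k Fk (ev Qb (D.G.redF c.t)) ≠ 0 := by
    intro h0
    have := c.param.2
    rw [h0, Qb.ord_zero] at this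
    exact zero_ne_one this
  -- `dq = s̄ / (t̄ - t̄(Qb))` has order `0`
  have hdq : dq Qb (D.G.redF c.t) (D.G.redF s) =
      D.G.redF s / (D.G.redF c.t - algebraMap k Fk (ev Qb (D.G.redF c.t))) := by
    rw [dq, hs0, map_zero, sub_zero]
  have hdqne : dq Qb (D.G.redF c.t) (D.G.redF s) ≠ 0 := by
    rw [hdq]; exact div_ne_zero hsne htne
  have hord0 : Qb.ord (dq Qb (D.G.redF c.t) (D.G.redF s)) = 0 := by
    rw [hdq, div_eq_mul_inv, Place.ord_mul Qb hsne (inv_ne_zero htne), Place.ord_inv, hord, c.param.2]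
    ring
  have hreg : RegAt Qb (dq Qb (D.G.redF c.t) (D.G.redF s)) := regAt_iff_ord.2 (by omega)
  have hne : ev Qb (dq Qb (D.G.redF c.t) (D.G.redF s)) ≠ 0 :=
    (ev_ne_zero_iff_ord hQ hreg hdqne).2 hord0
  -- conclude
  rcases A.valuation_lt_one_or_eq_one ⟨c.coeff s 1, hmem⟩ with hlt | heq
  · exfalso
    apply hne
    rw [← hres, IsLocalRing.residue_eq_zero_iff]
    exact (A.valuation_lt_one_iff _).2 hlt
  · exact heq

/-- **Newton application.** Simplicity of the zero at `w = 0` stated on the reduction: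
the reduction of `s_0 = ∑ m_k(0) e_k` has a simple zero at `Qb`. -/
theorem analyticOn_ev_zero (c : Chart D Qb) (hQ : Qb.deg = 1) (R : Subring L)
    (hR : R ≤ A.toSubring) {ϖ : L} (hϖ : A.valuation ϖ < 1)
    (hε : ∀ ε ∈ R, A.valuation ε < 1 → A.valuation ε ≤ A.valuation ϖ)
    (hRinv : ∀ r ∈ R, A.valuation r = 1 → r⁻¹ ∈ R)
    {ι : Type*} [Finite ι] {n : ℕ} (e : Fin n → F) (he : ∀ j, DiscReg D Qb (e j))
    (hcoef : ∀ j i, c.coeff (e j) i ∈ R)
    (m : Fin n → (ι → L) → L) (hm : ∀ j, AnalyticOn A R ϖ (m j))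
    (Z : (ι → L) → Place L F) (hZr : ∀ w ∈ PolyDisc A ι, D.r (Z w) = some Qb)
    (hZ : ∀ w ∈ PolyDisc A ι, ∑ j, m j w * ev (Z w) (e j) = 0)
    (hsimple : Qb.ord (D.G.redF (∑ j, m j 0 • e j)) = 1) :
    AnalyticOn A R ϖ (fun w => ev (Z w) c.t) := by
  have hϖA : ϖ ∈ A := A.mem_of_valuation_le_one _ (le_of_lt hϖ)
  haveI : Fact (R ≤ A.toSubring) := ⟨hR⟩
  refine analyticOn_ev_zero_core c R hR hϖ hε hRinv e he hcoef m hm Z hZr hZ ?_
  have hmA : ∀ j, m j 0 ∈ A := fun j =>
    analyticOn_mem A R hϖA (hm j) (fun _ => by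
      show A.valuation 0 < 1
      rw [map_zero]; exact zero_lt_one)
  set a : Fin n → A := fun j => ⟨m j 0, hmA j⟩ with ha
  have hs : DiscReg D Qb (∑ j, ((a j : A) : L) • e j) :=
    DiscReg.sum _ _ (fun j _ => (he j).smul (a j))
  have := valuation_coeff_one_eq_one c hQ hs hsimple
  rw [coeff_sum_smul c e he a 1] at this
  exact this

end Fermat.Agent.S33lib.NAn

end
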