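/-
S33lib / NAn / CrossLin (helper4): the determinant section, as pure linear algebra.

`W` a `K`-vector space, `eb 0 … eb m` linearly independent, `φ 0 … φ (m-1) : W → K` maps which are
`K`-linear on combinations of the `eb j`, and every combination of the `eb j` killed by all `φ r`
is a multiple of `s`.  Then the determinant section `∑ j, cross (φ r (eb j)) j • eb j` is a NONZERO
multiple of `s`.  (For one curve: `W = F`, `φ r = ev (Qs r)`: this is `S19lib/An/CrossRR`; for the
nodal curve: `W = F₁ × F₂`, `φ r` = evaluation of the relevant component at a smooth point.)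
-/
import Mathlib
import Fermat.Agent.S19lib.C.Cross

set_option autoImplicit false

noncomputable section

namespace Fermat.Agent.S33lib.NAn

open Fermat.Agent.S19lib.C Module

variable {K W : Type*} [Field K] [AddCommGroup W] [Module K W]

/-- **the determinant section, abstract form** -/
theorem exists_cross_eq_smul_of_ker {m : ℕ} (eb : Fin (m + 1) → W) (hli : LinearIndependent K eb)
    (φ : Fin m → W → K)
    (hφ : ∀ (r : Fin m) (c : Fin (m + 1) → K), φ r (∑ j, c j • eb j) = ∑ j, c j * φ r (eb j))
    {s : W}
    (hker : ∀ c : Fin (m + 1) → K, (∀ r, φ r (∑ j, c j • eb j) = 0) →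
      ∑ j, c j • eb j ∈ Submodule.span K {s}) :
    ∃ lam : K, lam ≠ 0 ∧
      ∑ j, cross (Matrix.of fun r j => φ r (eb j)) j • eb j = lam • s := by
  classical
  set Λ : Matrix (Fin m) (Fin (m + 1)) K := Matrix.of fun r j => φ r (eb j) with hΛ
  -- the linear combination map
  set ψ : (Fin (m + 1) → K) →ₗ[K] W := Fintype.linearCombination K eb with hψ
  have hψapply : ∀ c, ψ c = ∑ j, c j • eb j := fun c => Fintype.linearCombination_apply K eb c
  have hψinj : Function.Injective ψ := by
    rw [injective_iff_map_eq_zero]
    intro c hc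
    rw [hψapply] at hc
    funext j
    exact (Fintype.linearIndependent_iff.1 hli) c hc j
  -- evaluation of a combination
  have hevc : ∀ c r, φ r (ψ c) = (Λ.mulVec c) r := by
    intro c r
    rw [hψapply, hφ r c, Matrix.mulVec, dotProduct]
    refine Finset.sum_congr rfl (fun j _ => ?_)
    rw [hΛ, Matrix.of_apply, mul_comm]
  -- the kernel of `Λ` maps into `span {s}`
  have hker' : ∀ c, Λ.mulVec c = 0 → ψ c ∈ Submodule.span K {s} := by
    intro c hc
    rw [hψapply]
    refine hker c (fun r => ?_)
    rw [← hψapply, hevc, hc, Pi.zero_apply]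
  -- the kernel has dimension at most one
  set Φ : (Fin (m + 1) → K) →ₗ[K] (Fin m → K) := Λ.mulVecLin with hΦ
  have hkerle : finrank K (LinearMap.ker Φ) ≤ 1 := by
    have h1 : (LinearMap.ker Φ).map ψ ≤ Submodule.span K {s} := by
      rintro _ ⟨c, hc, rfl⟩
      exact hker' c (by simpa [hΦ] using hc)
    have h2 : finrank K ((LinearMap.ker Φ).map ψ) = finrank K (LinearMap.ker Φ) :=
      (Submodule.equivMapOfInjective ψ hψinj _).finrank_eq.symm
    have h3 : finrank K (Submodule.span K {s}) ≤ 1 := by
      have := finrank_span_le_card (R := K) ({s} : Set W)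
      simpa using this
    have hfd : FiniteDimensional K (Submodule.span K {s}) :=
      FiniteDimensional.span_of_finite K (Set.finite_singleton s)
    have h4 := Submodule.finrank_mono h1
    omega
  -- hence `Λ` is surjective
  have hsurj : Function.Surjective Φ := by
    rw [← LinearMap.range_eq_top]
    apply Submodule.eq_top_of_finrank_eq
    have h1 := LinearMap.finrank_range_add_finrank_ker Φ
    have h2 : finrank K (LinearMap.range Φ) ≤ finrank K (Fin m → K) := Submodule.finrank_le _
    rw [Module.finrank_fin_fun] at h1 h2 ⊢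
    omega
  -- rows independent
  have hrows : LinearIndependent K (fun r => Λ r) := by
    rw [Fintype.linearIndependent_iff]
    intro l hl r0
    obtain ⟨c, hc⟩ := hsurj (Pi.single r0 1)
    have h1 : ∑ r, l r * (Λ.mulVec c) r = 0 := by
      have h2 : ∀ r, (Λ.mulVec c) r = ∑ j, Λ r j * c j := fun r => rfl
      simp only [h2, Finset.mul_sum]
      rw [Finset.sum_comm]
      refine Finset.sum_eq_zero (fun j _ => ?_)
      have h3 := congrFun hl j
      simp only [Finset.sum_apply, Pi.smul_apply, smul_eq_mul, Pi.zero_apply] at h3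
      calc ∑ r, l r * (Λ r j * c j) = (∑ r, l r * Λ r j) * c j := by
            rw [Finset.sum_mul]; exact Finset.sum_congr rfl (fun r _ => by ring)
        _ = 0 := by rw [h3, zero_mul]
    have h4 : Λ.mulVec c = Pi.single r0 1 := by simpa [hΦ] using hc
    rw [h4] at h1
    simpa [Pi.single_apply] using h1
  -- conclusion
  have hcne : cross Λ ≠ 0 := cross_ne_zero hrows
  have hσ : ∑ j, cross Λ j • eb j = ψ (cross Λ) := (hψapply _).symm
  have hσmem : ψ (cross Λ) ∈ Submodule.span K {s} := hker' _ (mulVec_cross Λ)
  obtain ⟨lam, hlam⟩ := Submodule.mem_span_singleton.1 hσmem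
  refine ⟨lam, ?_, ?_⟩
  · rintro rfl
    rw [zero_smul] at hlam
    apply hcne
    apply hψinj
    rw [← hlam, map_zero]
  · rw [hσ, hlam]

end Fermat.Agent.S33lib.NAn

end
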