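/-
S33lib / NAn / CrossNodal (helper4): the determinant section on the NODAL residue curve
(`S19lib/An/CrossRR` for `Core.nodalSpace`).

`F₁ F₂` the two components, nodes `x₁ x₂`, `eb 0 … eb m` a basis of the nodal Riemann–Roch space
`nodalSpace x₁ x₂ lam B₁ B₂`, `Qs r` (`r : Fin m`) distinct points of degree one of either component
where `B₁` resp. `B₂` is trivial, and
`nodalSpace (B₁ - ∑_{r on X̄₁} Qs r) (B₂ - ∑_{r on X̄₂} Qs r) = k · s`.  Then the determinant section
`∑ j, cross (evPt (Qs r) (eb j)) j • eb j` is a NONZERO multiple of `s`.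
-/
import Mathlib
import Fermat.Agent.S33lib.NAn.CrossLin
import Fermat.Agent.S19lib.An.CrossRR
import Fermat.Agent.LSb.Core.NodalRR

set_option autoImplicit false
set_option linter.unusedSectionVars false

noncomputable section

namespace Fermat.Agent.S33lib.NAn

open AlgebraicCurve Fermat.Agent.LSb Fermat.Agent.S19lib.C Fermat.Agent.S19lib.An Module

variable {K F₁ F₂ : Type*} [Field K] [Field F₁] [Field F₂] [Algebra K F₁] [Algebra K F₂]

/-- evaluation of a pair of functions at a point of either component -/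
def evPt (q : Place K F₁ ⊕ Place K F₂) (φ : F₁ × F₂) : K :=
  Sum.elim (fun v => ev v φ.1) (fun v => ev v φ.2) q

/-- the part of a family of points lying on the first component, as a divisor -/
def sumL {ι : Type*} [Fintype ι] (Qs : ι → Place K F₁ ⊕ Place K F₂) : Divisor K F₁ :=
  ∑ r, Sum.elim (fun v => (Finsupp.single v (1 : ℤ) : Divisor K F₁)) (fun _ => 0) (Qs r)

/-- the part of a family of points lying on the second component, as a divisor -/
def sumR {ι : Type*} [Fintype ι] (Qs : ι → Place K F₁ ⊕ Place K F₂) : Divisor K F₂ :=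
  ∑ r, Sum.elim (fun _ => 0) (fun v => (Finsupp.single v (1 : ℤ) : Divisor K F₂)) (Qs r)

section sums

variable {ι : Type*} [Fintype ι] (Qs : ι → Place K F₁ ⊕ Place K F₂)

theorem sumL_apply_self (hQ : Function.Injective Qs) (r0 : ι) (v : Place K F₁)
    (h : Qs r0 = Sum.inl v) : sumL Qs v = 1 := by
  classical
  rw [sumL, Finsupp.finsetSum_apply, Finset.sum_eq_single r0]
  · rw [h, Sum.elim_inl, Finsupp.single_eq_same]
  · intro r _ hr
    rcases hq : Qs r with w | w
    · rw [Sum.elim_inl, Finsupp.single_apply, if_neg]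
      intro hw
      apply hr
      apply hQ
      rw [hq, h, hw]
    · rw [Sum.elim_inr]
      rfl
  · intro h0
    exact absurd (Finset.mem_univ r0) h0

theorem sumL_apply_of_not_mem (v : Place K F₁) (h : ∀ r, Qs r ≠ Sum.inl v) : sumL Qs v = 0 := by
  classical
  rw [sumL, Finsupp.finsetSum_apply]
  refine Finset.sum_eq_zero (fun r _ => ?_)
  rcases hq : Qs r with w | w
  · rw [Sum.elim_inl, Finsupp.single_apply, if_neg]
    intro hw
    exact h r (by rw [hq, hw])
  · rw [Sum.elim_inr]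
    rfl

theorem sumR_apply_self (hQ : Function.Injective Qs) (r0 : ι) (v : Place K F₂)
    (h : Qs r0 = Sum.inr v) : sumR Qs v = 1 := by
  classical
  rw [sumR, Finsupp.finsetSum_apply, Finset.sum_eq_single r0]
  · rw [h, Sum.elim_inr, Finsupp.single_eq_same]
  · intro r _ hr
    rcases hq : Qs r with w | w
    · rw [Sum.elim_inl]
      rfl
    · rw [Sum.elim_inr, Finsupp.single_apply, if_neg]
      intro hw
      apply hr
      apply hQ
      rw [hq, h, hw]
  · intro h0
    exact absurd (Finset.mem_univ r0) h0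

theorem sumR_apply_of_not_mem (v : Place K F₂) (h : ∀ r, Qs r ≠ Sum.inr v) : sumR Qs v = 0 := by
  classical
  rw [sumR, Finsupp.finsetSum_apply]
  refine Finset.sum_eq_zero (fun r _ => ?_)
  rcases hq : Qs r with w | w
  · rw [Sum.elim_inl]
    rfl
  · rw [Sum.elim_inr, Finsupp.single_apply, if_neg]
    intro hw
    exact h r (by rw [hq, hw])

/-- a function of `L(B₁)` vanishing at the points of the family lying on the first component -/
theorem mem_rr_sub_sumL (hQ : Function.Injective Qs) {B₁ : Divisor K F₁}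
    (hdeg : ∀ r v, Qs r = Sum.inl v → v.deg = 1) (hB : ∀ r v, Qs r = Sum.inl v → B₁ v = 0)
    {f : F₁} (hf : f ∈ riemannRochSpace B₁) (hev : ∀ r v, Qs r = Sum.inl v → ev v f = 0) :
    f ∈ riemannRochSpace (B₁ - sumL Qs) := by
  classical
  rw [mem_riemannRochSpace_iff]
  intro v
  rw [Finsupp.sub_apply]
  by_cases h : ∃ r, Qs r = Sum.inl v
  · obtain ⟨r0, hr0⟩ := h
    rw [sumL_apply_self Qs hQ r0 v hr0]
    have hreg := regAt_of_mem_rr hf (hB r0 v hr0)
    rcases (ev_eq_zero_iff (hdeg r0 v hr0) hreg).1 (hev r0 v hr0) with h0 | hpos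
    · exact Or.inl h0
    · right
      rw [hB r0 v hr0]
      omega
  · rw [sumL_apply_of_not_mem Qs v (fun r hr => h ⟨r, hr⟩)]
    rcases mem_riemannRochSpace_iff.1 hf v with h0 | h1
    · exact Or.inl h0
    · right
      simpa using h1

theorem mem_rr_sub_sumR (hQ : Function.Injective Qs) {B₂ : Divisor K F₂}
    (hdeg : ∀ r v, Qs r = Sum.inr v → v.deg = 1) (hB : ∀ r v, Qs r = Sum.inr v → B₂ v = 0)
    {f : F₂} (hf : f ∈ riemannRochSpace B₂) (hev : ∀ r v, Qs r = Sum.inr v → ev v f = 0) :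
    f ∈ riemannRochSpace (B₂ - sumR Qs) := by
  classical
  rw [mem_riemannRochSpace_iff]
  intro v
  rw [Finsupp.sub_apply]
  by_cases h : ∃ r, Qs r = Sum.inr v
  · obtain ⟨r0, hr0⟩ := h
    rw [sumR_apply_self Qs hQ r0 v hr0]
    have hreg := regAt_of_mem_rr hf (hB r0 v hr0)
    rcases (ev_eq_zero_iff (hdeg r0 v hr0) hreg).1 (hev r0 v hr0) with h0 | hpos
    · exact Or.inl h0
    · right
      rw [hB r0 v hr0]
      omega
  · rw [sumR_apply_of_not_mem Qs v (fun r hr => h ⟨r, hr⟩)]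
    rcases mem_riemannRochSpace_iff.1 hf v with h0 | h1
    · exact Or.inl h0
    · right
      simpa using h1

end sums

variable {s : ℕ} {x₁ : Fin s → Place K F₁} {x₂ : Fin s → Place K F₂}

/-- a pair of the nodal space vanishing at the points of the family lies in the nodal space of the
divisors minus the family -/
theorem mem_nodalSpace_sub {ι : Type*} [Fintype ι] (Qs : ι → Place K F₁ ⊕ Place K F₂)
    (hQ : Function.Injective Qs) {lam : Fin s → K} {B₁ : Divisor K F₁} {B₂ : Divisor K F₂}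
    (hdeg₁ : ∀ r v, Qs r = Sum.inl v → v.deg = 1) (hdeg₂ : ∀ r v, Qs r = Sum.inr v → v.deg = 1)
    (hB₁ : ∀ r v, Qs r = Sum.inl v → B₁ v = 0) (hB₂ : ∀ r v, Qs r = Sum.inr v → B₂ v = 0)
    {φ : F₁ × F₂} (hφ : φ ∈ Core.nodalSpace x₁ x₂ lam B₁ B₂) (hev : ∀ r, evPt (Qs r) φ = 0) :
    φ ∈ Core.nodalSpace x₁ x₂ lam (B₁ - sumL Qs) (B₂ - sumR Qs) := by
  refine ⟨mem_rr_sub_sumL Qs hQ hdeg₁ hB₁ hφ.1 ?_, mem_rr_sub_sumR Qs hQ hdeg₂ hB₂ hφ.2.1 ?_,
    hφ.2.2⟩
  · intro r v hr
    have := hev r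
    rwa [hr] at this
  · intro r v hr
    have := hev r
    rwa [hr] at this

/-- **the determinant section on the nodal curve** -/
theorem exists_cross_section_eq_smul_nodal {m : ℕ} {lam : Fin s → K} {B₁ : Divisor K F₁}
    {B₂ : Divisor K F₂} (eb : Fin (m + 1) → F₁ × F₂) (hli : LinearIndependent K eb)
    (hspan : Submodule.span K (Set.range eb) = Core.nodalSpace x₁ x₂ lam B₁ B₂)
    (Qs : Fin m → Place K F₁ ⊕ Place K F₂) (hQ : Function.Injective Qs)
    (hdeg₁ : ∀ r v, Qs r = Sum.inl v → v.deg = 1) (hdeg₂ : ∀ r v, Qs r = Sum.inr v → v.deg = 1)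
    (hB₁ : ∀ r v, Qs r = Sum.inl v → B₁ v = 0) (hB₂ : ∀ r v, Qs r = Sum.inr v → B₂ v = 0)
    {σ : F₁ × F₂}
    (hrr : Core.nodalSpace x₁ x₂ lam (B₁ - sumL Qs) (B₂ - sumR Qs) = Submodule.span K {σ}) :
    ∃ c : K, c ≠ 0 ∧
      ∑ j, cross (Matrix.of fun r j => evPt (Qs r) (eb j)) j • eb j = c • σ := by
  classical
  have hmem : ∀ j, eb j ∈ Core.nodalSpace x₁ x₂ lam B₁ B₂ := fun j => by
    rw [← hspan]; exact Submodule.subset_span ⟨j, rfl⟩
  refine exists_cross_eq_smul_of_ker eb hli (fun r => evPt (Qs r)) ?_ ?_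
  · -- linearity of the evaluations on combinations
    intro r c
    rcases hq : Qs r with v | v
    · have hreg : ∀ j, RegAt v (eb j).1 := fun j => regAt_of_mem_rr (hmem j).1 (hB₁ r v hq)
      show ev v (∑ j, c j • eb j).1 = ∑ j, c j * ev v (eb j).1
      rw [Prod.fst_sum, ev_sum (hdeg₁ r v hq) _ _ (fun j _ => by
        rw [Prod.smul_fst]; exact (hreg j).smul (c j))]
      refine Finset.sum_congr rfl (fun j _ => ?_)
      rw [Prod.smul_fst, ev_smul (hdeg₁ r v hq) _ (hreg j)]
    · have hreg : ∀ j, RegAt v (eb j).2 := fun j => regAt_of_mem_rr (hmem j).2.1 (hB₂ r v hq)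
      show ev v (∑ j, c j • eb j).2 = ∑ j, c j * ev v (eb j).2
      rw [Prod.snd_sum, ev_sum (hdeg₂ r v hq) _ _ (fun j _ => by
        rw [Prod.smul_snd]; exact (hreg j).smul (c j))]
      refine Finset.sum_congr rfl (fun j _ => ?_)
      rw [Prod.smul_snd, ev_smul (hdeg₂ r v hq) _ (hreg j)]
  · -- the kernel
    intro c hc
    rw [← hrr]
    refine mem_nodalSpace_sub Qs hQ hdeg₁ hdeg₂ hB₁ hB₂ ?_ hc
    exact Submodule.sum_mem _ (fun j _ => Submodule.smul_mem _ _ (hmem j))

end Fermat.Agent.S33lib.NAn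

end
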